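import Mathlib.Data.Nat.Squarefree
import Fermat.Prelude.Def_FLTPrelim_Modularity
import Fermat.Agent.Eis.CuspCoeff
import Fermat.Agent.Eis.Expansion
import Fermat.Agent.Mazur.EisensteinComponent.Bound

/-!
# Depletion

Depletion of an eigenform of weight two at primes of its level.
-/

noncomputable section

open CongruenceSubgroup ModularFormClass UpperHalfPlane

namespace Fermat.Agent.Depletion

/-- A cusp form on `Γ₀(N)` is a function with a `q`-expansion of period one. -/
theorem goodFn_cuspForm {N : ℕ} [NeZero N] (f : CuspForm (Gamma0 N) 2) :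
    Eis.GoodFn 1 (⇑f : ℍ → ℂ) :=
  ⟨SlashInvariantFormClass.periodic_comp_ofComplex f (one_mem_strictPeriods_Gamma0 N),
    CuspFormClass.holo f, ModularFormClass.bdd_at_infty f⟩

/-- The parameter `q` at `ℓ τ` is the `ℓ`-th power of the one at `τ`. -/
theorem qParam_diag {ℓ : ℕ} [NeZero ℓ] (τ : ℍ) :
    Function.Periodic.qParam 1 ((ModularForm.heckeDiagMatrix ℓ • τ : ℍ) : ℂ) =
      Function.Periodic.qParam 1 (τ : ℂ) ^ ℓ := by
  rw [Function.Periodic.qParam, Function.Periodic.qParam, ← Complex.exp_nat_mul,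
    ModularForm.coe_heckeDiagMatrix_smul (NeZero.ne ℓ)]
  congr 1
  push_cast
  ring

/-- The coefficients of `f (τ) - u f (ℓ τ)`. -/
theorem qCoeff_stabForm {N ℓ : ℕ} [NeZero N] [NeZero ℓ] (f : CuspForm (Gamma0 N) 2) (u : ℂ)
    (n : ℕ) :
    qCoeff (Mazur.stabForm (ℓ := ℓ) f u) n =
      qCoeff f n - u * (if ℓ ∣ n then qCoeff f (n / ℓ) else 0) := by
  let c : ℕ → ℂ := fun m => if ℓ ∣ m then qCoeff f (m / ℓ) else 0
  let A : PowerSeries ℂ := PowerSeries.mk fun m => qCoeff f m - u * c m
  have hA : qExpansion 1 ⇑(Mazur.stabForm (ℓ := ℓ) f u) = A := by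
    refine Eis.qExpansion_eq_of_hasSum one_pos A fun τ => ?_
    rw [Mazur.coe_stabForm, Mazur.stabFun_apply]
    have hinj : Function.Injective (fun m : ℕ => ℓ * m) :=
      fun x y h => Nat.eq_of_mul_eq_mul_left (NeZero.pos ℓ) h
    have h2 : HasSum (fun m => c m * Function.Periodic.qParam 1 (τ : ℂ) ^ m)
        (f (ModularForm.heckeDiagMatrix ℓ • τ)) := by
      refine (hinj.hasSum_iff ?_).mp ?_
      · intro m hm
        have : ¬ ℓ ∣ m := fun ⟨k, hk⟩ => hm ⟨k, hk.symm⟩
        simp [c, this]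
      · have h := (goodFn_cuspForm f).hasSum one_pos (ModularForm.heckeDiagMatrix ℓ • τ)
        simp only [qParam_diag, ← pow_mul] at h
        simpa [c, qCoeff, Function.comp_def, Nat.mul_div_cancel_left _ (NeZero.pos ℓ)] using h
    have h3 := ((goodFn_cuspForm f).hasSum one_pos τ).sub (h2.mul_left u)
    simpa [A, qCoeff, sub_mul, mul_assoc] using h3
  rw [qCoeff, hA, PowerSeries.coeff_mk]

/-- An eigenform depleted at a set of primes of its level. -/
theorem exists_depleted {M : ℕ} [NeZero M] {f : CuspForm (Gamma0 M) 2}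
    (hf : f.IsNormalizedEigenform) (s : Finset ℕ) (hs : s ⊆ M.primeFactors) :
    ∃ g : CuspForm (Gamma0 (M * ∏ q ∈ s, q)) 2,
      ∀ n : ℕ, qCoeff g n = if ∀ q ∈ s, ¬ q ∣ n then qCoeff f n else 0 := by
  induction s using Finset.induction_on with
  | empty =>
    rw [Finset.prod_empty, mul_one]
    exact ⟨f, by simp⟩
  | @insert q s hqs ih =>
    obtain ⟨g, hg⟩ := ih ((Finset.subset_insert _ _).trans hs)
    have hq := Nat.mem_primeFactors.mp (hs (Finset.mem_insert_self q s))
    have : NeZero q := ⟨hq.1.ne_zero⟩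
    have : NeZero (M * ∏ x ∈ s, x) := ⟨mul_ne_zero (NeZero.ne M) (Finset.prod_ne_zero_iff.mpr
      fun x hx => (Nat.prime_of_mem_primeFactors (hs (Finset.mem_insert_of_mem hx))).ne_zero)⟩
    rw [Finset.prod_insert hqs, mul_comm q, ← mul_assoc]
    refine ⟨Mazur.stabForm (ℓ := q) g (qCoeff f q), fun n => ?_⟩
    rw [qCoeff_stabForm, hg n]
    by_cases hqn : q ∣ n
    · rw [if_pos hqn, hg (n / q),
        if_neg (fun h : ∀ x ∈ insert q s, ¬ x ∣ n => h q (Finset.mem_insert_self q s) hqn)]
      obtain ⟨m, rfl⟩ := hqn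
      rw [Nat.mul_div_cancel_left _ hq.1.pos]
      have hiff : ∀ x ∈ s, x ∣ q * m ↔ x ∣ m := fun x hx => by
        have hxp := Nat.prime_of_mem_primeFactors (hs (Finset.mem_insert_of_mem hx))
        exact ⟨fun h => (hxp.dvd_mul.mp h).resolve_left fun h' =>
          hqs ((Nat.prime_dvd_prime_iff_eq hxp hq.1).mp h' ▸ hx), fun h => h.mul_left q⟩
      by_cases hm : ∀ x ∈ s, ¬ x ∣ m
      · rw [if_pos (fun x hx h => hm x hx ((hiff x hx).mp h)), if_pos hm]
        have hmul : qCoeff f (q * m) = qCoeff f q * qCoeff f m := by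
          rcases eq_or_ne m 0 with rfl | hm0
          · rw [mul_zero, Eis.qCoeff_cusp_zero, mul_zero]
          obtain ⟨r, m', hm', rfl⟩ := Nat.exists_eq_pow_mul_and_not_dvd hm0 q hq.1.ne_one
          have hco : ∀ k, (q ^ k).Coprime m' := fun k =>
            (hq.1.coprime_iff_not_dvd.mpr hm').pow_left k
          rw [← mul_assoc, ← pow_succ', hf.qCoeff_mul_of_coprime _ _ (hco _),
            hf.qCoeff_mul_of_coprime _ _ (hco _)]
          cases r with
          | zero => simp [hf.qCoeff_one]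
          | succ k => rw [hf.qCoeff_prime_pow_of_dvd q k hq.1 hq.2.1]; ring
        rw [hmul, sub_self]
      · rw [if_neg (fun h => hm fun x hx hd => h x hx ((hiff x hx).mpr hd)), if_neg hm,
          mul_zero, sub_self]
    · rw [if_neg hqn, mul_zero, sub_zero]
      simp only [Finset.forall_mem_insert, hqn, not_false_eq_true, true_and]

/-- The depletion at all primes of a squarefree level. -/
theorem exists_depleted_sq {M : ℕ} [NeZero M] (hM : Squarefree M) {f : CuspForm (Gamma0 M) 2}
    (hf : f.IsNormalizedEigenform) :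
    ∃ g : CuspForm (Gamma0 (M * M)) 2,
      ∀ n : ℕ, qCoeff g n = if n.Coprime M then qCoeff f n else 0 := by
  classical
  have h := exists_depleted hf M.primeFactors subset_rfl
  rw [Nat.prod_primeFactors_of_squarefree hM] at h
  obtain ⟨g, hg⟩ := h
  refine ⟨g, fun n => (hg n).trans (if_congr ?_ rfl rfl)⟩
  constructor
  · intro h
    refine Nat.coprime_of_dvd fun q hq hqn hqM => ?_
    exact h q (Nat.mem_primeFactors.mpr ⟨hq, hqM, NeZero.ne M⟩) hqn
  · intro h q hq hqn
    obtain ⟨hq, hqM, -⟩ := Nat.mem_primeFactors.mp hq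
    exact Nat.not_coprime_of_dvd_of_dvd hq.one_lt hqn hqM h

end Fermat.Agent.Depletion
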