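import Mathlib.Data.Nat.Factorization.Basic
import Mathlib.Data.Nat.Factorization.Induction
import Mathlib.Tactic.LinearCombination
import Mathlib.Tactic.Ring
import Fermat.Prelude.Def_FormalHecke_Eigensystem

/-!
# Multiplicative sequences with prime power recursion

The multiplicative sequence with prescribed values at primes and the second order recursion at
prime powers.
-/

namespace Fermat.Agent.Depletion

variable {R S : Type*} [CommRing R] [CommRing S]

/-- `1, c, c ^ 2 - e, …`. -/
def recSeq (c e : R) : ℕ → R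
  | 0 => 1
  | 1 => c
  | r + 2 => c * recSeq c e (r + 1) - e * recSeq c e r

/-- The multiplicative sequence with the values `recSeq (c p) (e p) r` at `p ^ r`. -/
noncomputable def recMul (c e : ℕ → R) (n : ℕ) : R :=
  if n = 0 then 0 else n.factorization.prod fun p r => recSeq (c p) (e p) r

theorem recMul_zero (c e : ℕ → R) : recMul c e 0 = 0 := if_pos rfl

theorem recMul_prime_pow (c e : ℕ → R) {p : ℕ} (hp : p.Prime) (r : ℕ) :
    recMul c e (p ^ r) = recSeq (c p) (e p) r := by
  rw [recMul, if_neg (pow_ne_zero r hp.ne_zero), hp.factorization_pow]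
  exact Finsupp.prod_single_index (h := fun p r => recSeq (c p) (e p) r) rfl

theorem recMul_one (c e : ℕ → R) : recMul c e 1 = 1 := by simp [recMul]

/-- `recMul c e` is multiplicative on coprime numbers. -/
theorem recMul_mul (c e : ℕ → R) {m n : ℕ} (h : m.Coprime n) :
    recMul c e (m * n) = recMul c e m * recMul c e n := by
  rcases eq_or_ne m 0 with rfl | hm
  · simp [recMul]
  rcases eq_or_ne n 0 with rfl | hn
  · simp [recMul]
  rw [recMul, recMul, recMul, if_neg (mul_ne_zero hm hn), if_neg hm, if_neg hn,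
    Nat.factorization_mul_of_coprime h,
    Finsupp.prod_add_index_of_disjoint (by simpa using h.disjoint_primeFactors)]

/-- `recMul c e` is an eigensystem with character values `e`. -/
theorem recMul_isEigensystem (c e : ℕ → R) :
    FormalHecke.IsEigensystem e (recMul c e) := by
  refine ⟨recMul_one c e, fun ℓ hℓ n => ?_⟩
  have hc : recMul c e ℓ = c ℓ := by
    conv_lhs => rw [← pow_one ℓ, recMul_prime_pow c e hℓ]
    rfl
  rcases eq_or_ne n 0 with rfl | hn
  · simp [recMul_zero]
  obtain ⟨r, m, hm, rfl⟩ := Nat.exists_eq_pow_mul_and_not_dvd hn ℓ hℓ.ne_one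
  have hco : ∀ k, (ℓ ^ k).Coprime m := fun k => (hℓ.coprime_iff_not_dvd.mpr hm).pow_left k
  rw [hc, ← mul_assoc, ← pow_succ', recMul_mul c e (hco _), recMul_mul c e (hco _),
    recMul_prime_pow c e hℓ, recMul_prime_pow c e hℓ]
  cases r with
  | zero => simp [recSeq, hm]
  | succ k =>
    rw [if_pos (Dvd.dvd.mul_right (dvd_pow_self ℓ k.succ_ne_zero) m), pow_succ', mul_assoc,
      Nat.mul_div_cancel_left _ hℓ.pos, recMul_mul c e (hco _), recMul_prime_pow c e hℓ]
    simp only [recSeq]
    ring

theorem map_recSeq (φ : R →+* S) (c e : R) : ∀ r, φ (recSeq c e r) = recSeq (φ c) (φ e) r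
  | 0 => map_one φ
  | 1 => rfl
  | r + 2 => by
    simp only [recSeq, map_sub, map_mul, map_recSeq φ c e r, map_recSeq φ c e (r + 1)]

/-- Any sequence with the same rules is `recMul`. -/
theorem eq_recMul (φ : R →+* S) (c e : ℕ → R) (h : ℕ → S) (h0 : h 0 = 0) (h1 : h 1 = 1)
    (hmul : ∀ m n : ℕ, m.Coprime n → h (m * n) = h m * h n)
    (hp1 : ∀ p : ℕ, p.Prime → h p = φ (c p))
    (hpp : ∀ p r : ℕ, p.Prime → h (p ^ (r + 2)) = φ (c p) * h (p ^ (r + 1)) - φ (e p) * h (p ^ r))
    (n : ℕ) : h n = φ (recMul c e n) := by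
  induction n using Nat.recOnPosPrimePosCoprime with
  | prime_pow p r hp hr =>
    rw [recMul_prime_pow c e hp, map_recSeq]
    clear hr
    induction r using Nat.twoStepInduction with
    | zero => simpa [recSeq] using h1
    | one => simpa [recSeq] using hp1 p hp
    | more k ih1 ih2 => simp only [recSeq, hpp p k hp, ih1, ih2]
  | zero => rw [h0, recMul_zero, map_zero]
  | one => rw [h1, recMul_one, map_one]
  | coprime a b _ _ hab iha ihb => rw [hmul a b hab, iha, ihb, recMul_mul c e hab, map_mul]

/-- Congruent data give congruent sequences. -/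
theorem map_recMul_congr (φ : R →+* S) (c e c' e' : ℕ → R)
    (hc : ∀ p : ℕ, p.Prime → φ (c p) = φ (c' p)) (he : ∀ p : ℕ, p.Prime → φ (e p) = φ (e' p))
    (n : ℕ) : φ (recMul c e n) = φ (recMul c' e' n) := by
  simp only [recMul]
  split_ifs
  · rfl
  · rw [map_finsuppProd, map_finsuppProd]
    refine Finsupp.prod_congr fun p hp => ?_
    have hp' : p.Prime := Nat.prime_of_mem_primeFactors (Nat.support_factorization n ▸ hp)
    rw [map_recSeq, map_recSeq, hc p hp', he p hp']

end Fermat.Agent.Depletion
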