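import Fermat.Prelude.Def_CuspForm_IntegralLattice
import Fermat.Prelude.Def_FLTPrelim_Modularity
import Fermat.Agent.Depletion.Depletion
import Fermat.Agent.Depletion.RecMul

/-!
# Realised weight one eigensystems modulo `3`

A weight two eigenform of squarefree level with rational eigenvalues away from the level realises a
weight one eigensystem modulo `3` at the square of the level.
-/

noncomputable section

open CongruenceSubgroup ModularFormClass EisensteinWeightOne

namespace Fermat.Agent.Depletion

/-- The character `χ₋₃` is congruent to the identity modulo `3`. -/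
theorem chiNegThree_cast (n : ℕ) : (chiNegThree n : ZMod 3) = (n : ZMod 3) := by
  have h : (3 : ℤ) ∣ (n : ℤ) - chiNegThree n := by
    unfold chiNegThree
    split_ifs <;> omega
  have := (ZMod.intCast_eq_intCast_iff_dvd_sub (chiNegThree n) n 3).mpr h
  rw [this, Int.cast_natCast]

/-- The product with the Eisenstein series of weight one does not change residues modulo `3`. -/
theorem bridgeProduct_cast (a : ℕ → ℤ) (n : ℕ) :
    (((bridgeProduct a).coeff n : ℤ) : ZMod 3) = (a n : ZMod 3) := by
  have h0 : PowerSeries.map (Int.castRingHom (ZMod 3)) e1Chi3 = 1 := by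
    ext k
    rw [PowerSeries.coeff_map, e1Chi3, PowerSeries.coeff_mk, PowerSeries.coeff_one]
    split_ifs
    · simp
    · have h6 : (6 : ZMod 3) = 0 := rfl
      simp [h6]
  have h1 : PowerSeries.map (Int.castRingHom (ZMod 3)) (bridgeProduct a) =
      PowerSeries.map (Int.castRingHom (ZMod 3)) (PowerSeries.mk a) := by
    rw [bridgeProduct, e1Chi3In, map_mul, Int.castRingHom_int, PowerSeries.map_id, id_eq,
      h0, mul_one]
  simpa using congrArg (PowerSeries.coeff n) h1

variable {M : ℕ} [NeZero M]

/-- The values of the weight one eigensystem at primes. -/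
def primeVal (M : ℕ) (ap : ℕ → ℤ) (p : ℕ) : ℤ := if p ∣ M then 0 else ap p

/-- The weight one eigensystem modulo `3` at level `M²` attached to an eigenform of weight two. -/
theorem exists_realized (hM : Squarefree M) {f : CuspForm (Gamma0 M) 2}
    (hf : f.IsNormalizedEigenform) (ap : ℕ → ℤ)
    (hap : ∀ p : ℕ, p.Prime → ¬ p ∣ M → qCoeff f p = (ap p : ℂ)) :
    ∃ a : ℕ → ℤ,
      FormalHecke.IsEigensystem
        (fun ℓ => if ℓ ∣ M * M then 0 else ((chiNegThree ℓ : ℤ) : ℤ)) a ∧
      CuspForm.IsLatticeRealized (M * M) a ∧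
      ∀ p : ℕ, p.Prime → ¬ p ∣ M → a p = ap p := by
  classical
  obtain ⟨g, hg⟩ := exists_depleted_sq hM hf
  set c := primeVal M ap with hc
  set e : ℕ → ℤ := fun ℓ => if ℓ ∣ M * M then 0 else ((chiNegThree ℓ : ℤ) : ℤ)
  set e' : ℕ → ℤ := fun ℓ => if ℓ ∣ M * M then 0 else (ℓ : ℤ)
  have hdvd : ∀ p : ℕ, p.Prime → (p ∣ M * M ↔ p ∣ M) := fun p hp =>
    ⟨fun h => (hp.dvd_mul.mp h).elim id id, fun h => h.mul_right M⟩
  have hb : ∀ n, qCoeff g n = ((recMul c e' n : ℤ) : ℂ) := by
    refine eq_recMul (Int.castRingHom ℂ) c e' (qCoeff g) (Eis.qCoeff_cusp_zero g) ?_ ?_ ?_ ?_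
    · rw [hg 1, if_pos (Nat.coprime_one_left M), hf.qCoeff_one]
    · intro m n hmn
      rw [hg, hg m, hg n, hf.qCoeff_mul_of_coprime m n hmn]
      simp only [Nat.coprime_mul_iff_left]
      split_ifs <;> simp_all
    · intro p hp
      rw [hg p]
      simp only [hp.coprime_iff_not_dvd, hc, primeVal, Int.coe_castRingHom]
      by_cases h : p ∣ M
      · simp [h]
      · simp [h, hap p hp h]
    · intro p r hp
      rw [hg (p ^ (r + 2)), hg (p ^ (r + 1)), hg (p ^ r)]
      simp only [hc, primeVal, e', hdvd p hp, Int.coe_castRingHom,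
        Nat.coprime_pow_left_iff (Nat.succ_pos _), hp.coprime_iff_not_dvd]
      by_cases h : p ∣ M
      · simp [h]
      · have hco : (p ^ r).Coprime M := (hp.coprime_iff_not_dvd.mpr h).pow_left r
        rw [hf.qCoeff_prime_pow_of_not_dvd p r hp h, hap p hp h]
        simp [h, hco]
  refine ⟨recMul c e, recMul_isEigensystem c e, ⟨g, fun n => ?_, recMul c e', fun n => (hb n).symm,
    fun n => ?_⟩, fun p hp hpM => ?_⟩
  · rw [hb n]
    exact intCast_mem _ _
  · have h := map_recMul_congr (Int.castRingHom (ZMod 3)) c e c e' (fun _ _ => rfl)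
      (fun p _ => by
        simp only [e, e', Int.coe_castRingHom]
        split_ifs
        · rfl
        · rw [chiNegThree_cast, Int.cast_natCast]) n
    simp only [Int.coe_castRingHom] at h
    refine (ZMod.intCast_eq_intCast_iff_dvd_sub _ _ 3).mp ?_
    rw [bridgeProduct_cast, h]
  · conv_lhs => rw [← pow_one p, recMul_prime_pow c e hp]
    simp [recSeq, hc, primeVal, hpM]

end Fermat.Agent.Depletion
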